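import Fermat.Agent.Lib.FrobDensity.Main
import Fermat.Agent.GAL.Interface

/-!
# The Frobenius density theorem in the form of `Fermat.Agent.GAL.FrobeniusDensity`
-/

set_option autoImplicit false

namespace Fermat.Agent.Lib.FrobDensity

theorem gal_frobeniusDensity : Fermat.Agent.GAL.FrobeniusDensity := by
  intro F hF g B
  obtain ⟨ℓ, A, σ, _, b, h1, h2, h3, h4, h5, _⟩ := exists_frobenius_pow F g B
  exact ⟨ℓ, A, σ, b, h1, h2, h3, h4, h5⟩

end Fermat.Agent.Lib.FrobDensity
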