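import Fermat.Agent.Lib.FrobDensity.Defs

/-!
# Frobenius density theorem: basic API for `Close`, `ell`, `nrm`, `frob`
-/

namespace Fermat.Agent.Lib.FrobDensity

open NumberField IsDedekindDomain Filter Topology
open scoped ENNReal NNReal

section Close

variable {a b c d : ℝ → ℝ≥0∞}

lemma Close.refl (a : ℝ → ℝ≥0∞) : Close a a :=
  ⟨0, Eventually.of_forall fun s => by simp⟩

lemma Close.symm (h : Close a b) : Close b a := by
  obtain ⟨C, hC⟩ := h
  exact ⟨C, hC.mono fun s hs => ⟨hs.2, hs.1⟩⟩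

lemma Close.trans (h₁ : Close a b) (h₂ : Close b c) : Close a c := by
  obtain ⟨C₁, hC₁⟩ := h₁
  obtain ⟨C₂, hC₂⟩ := h₂
  refine ⟨C₂ + C₁, ?_⟩
  filter_upwards [hC₁, hC₂] with s h1 h2
  push_cast
  constructor
  · calc a s ≤ b s + C₁ := h1.1
      _ ≤ (c s + C₂) + C₁ := by gcongr; exact h2.1
      _ = c s + (C₂ + C₁) := by ring
  · calc c s ≤ b s + C₂ := h2.2
      _ ≤ (a s + C₁) + C₂ := by gcongr; exact h1.2
      _ = a s + (C₂ + C₁) := by ring

lemma Close.add (h₁ : Close a b) (h₂ : Close c d) :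
    Close (fun s => a s + c s) (fun s => b s + d s) := by
  obtain ⟨C₁, hC₁⟩ := h₁
  obtain ⟨C₂, hC₂⟩ := h₂
  refine ⟨C₁ + C₂, ?_⟩
  filter_upwards [hC₁, hC₂] with s h1 h2
  push_cast
  constructor
  · calc a s + c s ≤ (b s + C₁) + (d s + C₂) := add_le_add h1.1 h2.1
      _ = b s + d s + (C₁ + C₂) := by ring
  · calc b s + d s ≤ (a s + C₁) + (c s + C₂) := add_le_add h1.2 h2.2
      _ = a s + c s + (C₁ + C₂) := by ring

lemma Close.const_mul (h : Close a b) (k : ℝ≥0) :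
    Close (fun s => k * a s) (fun s => k * b s) := by
  obtain ⟨C, hC⟩ := h
  refine ⟨k * C, ?_⟩
  filter_upwards [hC] with s h1
  push_cast
  constructor
  · calc (k : ℝ≥0∞) * a s ≤ k * (b s + C) := by gcongr; exact h1.1
      _ = k * b s + k * C := by ring
  · calc (k : ℝ≥0∞) * b s ≤ k * (a s + C) := by gcongr; exact h1.2
      _ = k * a s + k * C := by ring

lemma Close.of_eventuallyEq (h : ∀ᶠ s in 𝓝[>] (1 : ℝ), a s = b s) : Close a b :=
  ⟨0, h.mono fun s hs => by simp [hs]⟩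

lemma Close.congr_left (h : Close a b) (h' : ∀ s, a s = c s) : Close c b := by
  have : a = c := funext h'
  rwa [← this]

lemma Close.sum {ι : Type*} (S : Finset ι) (a b : ι → ℝ → ℝ≥0∞) (h : ∀ i ∈ S, Close (a i) (b i)) :
    Close (fun s => ∑ i ∈ S, a i s) (fun s => ∑ i ∈ S, b i s) := by
  classical
  induction S using Finset.induction_on with
  | empty => simpa using Close.refl _
  | insert i S hi ih =>
    simp only [Finset.sum_insert hi]
    exact (h i (Finset.mem_insert_self _ _)).add (ih fun j hj => h j (Finset.mem_insert_of_mem hj))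

/-- Cancellation: needs finiteness of the cancelled term. -/
lemma Close.cancel_right (h : Close (fun s => a s + c s) (fun s => b s + d s)) (h' : Close c d)
    (hfin : ∀ᶠ s in 𝓝[>] (1 : ℝ), c s ≠ ∞) : Close a b := by
  obtain ⟨C₁, hC₁⟩ := h
  obtain ⟨C₂, hC₂⟩ := h'
  refine ⟨C₁ + C₂, ?_⟩
  filter_upwards [hC₁, hC₂, hfin] with s h1 h2 h3
  have h4 : d s ≠ ∞ := ne_top_of_le_ne_top (ENNReal.add_ne_top.mpr ⟨h3, ENNReal.coe_ne_top⟩) h2.2
  push_cast
  constructor
  · refine (ENNReal.add_le_add_iff_right h3).mp ?_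
    calc a s + c s ≤ b s + d s + C₁ := h1.1
      _ ≤ b s + (c s + C₂) + C₁ := by gcongr; exact h2.2
      _ = b s + (C₁ + C₂) + c s := by ring
  · refine (ENNReal.add_le_add_iff_right h4).mp ?_
    calc b s + d s ≤ a s + c s + C₁ := h1.2
      _ ≤ a s + (d s + C₂) + C₁ := by gcongr; exact h2.1
      _ = a s + (C₁ + C₂) + d s := by ring

lemma lam_ne_top (s : ℝ) : lam s ≠ ∞ := ENNReal.ofReal_ne_top

lemma Close.eventually_ne_top (h : Close a (fun s => c s)) (hc : ∀ s, c s ≠ ∞) :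
    ∀ᶠ s in 𝓝[>] (1 : ℝ), a s ≠ ∞ := by
  obtain ⟨C, hC⟩ := h
  filter_upwards [hC] with s hs
  exact ne_top_of_le_ne_top (ENNReal.add_ne_top.mpr ⟨hc s, ENNReal.coe_ne_top⟩) hs.1

lemma tendsto_lam : Tendsto lam (𝓝[>] (1 : ℝ)) (𝓝 ∞) := by
  unfold lam
  refine ENNReal.tendsto_ofReal_atTop.comp (Real.tendsto_log_atTop.comp ?_)
  have h1 : Tendsto (fun s : ℝ => s - 1) (𝓝[>] (1 : ℝ)) (𝓝[>] 0) := by
    refine tendsto_nhdsWithin_iff.mpr ⟨?_, ?_⟩
    · have : Tendsto (fun s : ℝ => s - 1) (𝓝 1) (𝓝 (1 - 1)) :=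
        (continuous_id.sub continuous_const).tendsto 1
      rw [sub_self] at this
      exact this.mono_left nhdsWithin_le_nhds
    · filter_upwards [self_mem_nhdsWithin] with s hs
      have : (1 : ℝ) < s := hs
      simpa using this
  have h2 := tendsto_inv_nhdsGT_zero.comp h1
  refine h2.congr fun s => ?_
  simp [one_div]

/-- A function close to a positive multiple of `lam` is not identically zero near `1`. -/
lemma Close.exists_ne_zero {k : ℝ≥0∞} (hk : 1 ≤ k) (h : Close a (fun s => k * lam s)) :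
    ∃ s, a s ≠ 0 := by
  obtain ⟨C, hC⟩ := h
  have h1 : ∀ᶠ s in 𝓝[>] (1 : ℝ), (C : ℝ≥0∞) < lam s :=
    tendsto_lam.eventually (lt_mem_nhds ENNReal.coe_lt_top)
  obtain ⟨s, hs1, hs2⟩ := (hC.and h1).exists
  refine ⟨s, fun h0 => ?_⟩
  have := hs1.2
  rw [h0, zero_add] at this
  have h2 : lam s ≤ k * lam s := by
    calc lam s = 1 * lam s := (one_mul _).symm
      _ ≤ k * lam s := by gcongr
  exact absurd (h2.trans this) (not_le.mpr hs2)

end Close

section Ell

variable (L : Type*) [Field L] [NumberField L]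

lemma ell_eq_absNorm (w : HeightOneSpectrum (𝓞 L)) :
    ell L w = Ideal.absNorm (w.asIdeal.under ℤ) := by
  rw [ell, Ideal.absNorm_apply, Submodule.cardQuot_apply]

omit [NumberField L] in
lemma under_ne_bot (w : HeightOneSpectrum (𝓞 L)) : w.asIdeal.under ℤ ≠ ⊥ :=
  (HeightOneSpectrum.under ℤ w).ne_bot

lemma under_eq_span (w : HeightOneSpectrum (𝓞 L)) :
    w.asIdeal.under ℤ = Ideal.span {(ell L w : ℤ)} := by
  rw [ell_eq_absNorm]
  exact (Int.ideal_span_absNorm_eq_self _).symm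

lemma ell_prime (w : HeightOneSpectrum (𝓞 L)) : (ell L w).Prime := by
  have h1 : (w.asIdeal.under ℤ).IsPrime := inferInstance
  rw [under_eq_span, Ideal.span_singleton_prime] at h1
  · exact Nat.prime_iff_prime_int.mpr h1
  · intro h
    apply under_ne_bot L w
    rw [under_eq_span, h]
    simp

instance liesOver_span_ell (w : HeightOneSpectrum (𝓞 L)) :
    w.asIdeal.LiesOver (Ideal.span {(ell L w : ℤ)}) :=
  ⟨(under_eq_span L w).symm⟩

lemma ell_pow_inertiaDeg (w : HeightOneSpectrum (𝓞 L)) :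
    ell L w ^ w.asIdeal.inertiaDeg ℤ = nrm L w :=
  Ideal.pow_inertiaDeg (ell L w) w.asIdeal

lemma natCast_mem_iff (w : HeightOneSpectrum (𝓞 L)) (n : ℕ) :
    (n : 𝓞 L) ∈ w.asIdeal ↔ ell L w ∣ n := by
  have : (n : 𝓞 L) ∈ w.asIdeal ↔ (n : ℤ) ∈ w.asIdeal.under ℤ := by
    rw [Ideal.under_def, Ideal.mem_comap]; simp
  rw [this, under_eq_span, Ideal.mem_span_singleton]
  exact Int.natCast_dvd_natCast

lemma intCast_mem_iff (w : HeightOneSpectrum (𝓞 L)) (n : ℤ) :
    (n : 𝓞 L) ∈ w.asIdeal ↔ (ell L w : ℤ) ∣ n := by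
  have : (n : 𝓞 L) ∈ w.asIdeal ↔ (n : ℤ) ∈ w.asIdeal.under ℤ := by
    rw [Ideal.under_def, Ideal.mem_comap]; simp
  rw [this, under_eq_span, Ideal.mem_span_singleton]

lemma ell_eq_of_mem (w : HeightOneSpectrum (𝓞 L)) {p : ℕ} (hp : p.Prime)
    (h : (p : 𝓞 L) ∈ w.asIdeal) : ell L w = p :=
  (Nat.prime_dvd_prime_iff_eq (ell_prime L w) hp).mp ((natCast_mem_iff L w p).mp h)

lemma inertiaDeg_pos (w : HeightOneSpectrum (𝓞 L)) : 0 < w.asIdeal.inertiaDeg ℤ :=
  Ideal.inertiaDeg_pos _ _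

lemma nrm_prime_iff (w : HeightOneSpectrum (𝓞 L)) :
    (nrm L w).Prime ↔ nrm L w = ell L w := by
  constructor
  · intro h
    rw [← ell_pow_inertiaDeg] at h ⊢
    have := h.eq_one_of_pow
    rw [this, pow_one]
  · intro h
    rw [h]
    exact ell_prime L w

lemma nrm_eq_ell_iff (w : HeightOneSpectrum (𝓞 L)) :
    nrm L w = ell L w ↔ w.asIdeal.inertiaDeg ℤ = 1 := by
  rw [← ell_pow_inertiaDeg]
  constructor
  · intro h
    exact Nat.pow_right_injective (ell_prime L w).two_le (by simpa using h)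
  · intro h
    rw [h, pow_one]

instance finite_quot (w : HeightOneSpectrum (𝓞 L)) : Finite (𝓞 L ⧸ w.asIdeal) :=
  Ideal.finiteQuotientOfFreeOfNeBot _ w.ne_bot

variable (M : Type*) [Field M] [NumberField M] [Algebra M L]

lemma ell_under (w : HeightOneSpectrum (𝓞 L)) :
    ell M (HeightOneSpectrum.under (𝓞 M) w) = ell L w := by
  unfold ell
  rw [HeightOneSpectrum.under_asIdeal, Ideal.under_under]

end Ell

section Frob

variable (L : Type*) [Field L] [NumberField L] (G : Type*) [Group G] [Finite G]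
  [MulSemiringAction G L] [IsGaloisGroup G ℚ L]

/-- A Frobenius element at `w` (unique when the inertia group is trivial). -/
noncomputable def frob (w : HeightOneSpectrum (𝓞 L)) : G := arithFrobAt ℤ G w.asIdeal

lemma frob_spec (w : HeightOneSpectrum (𝓞 L)) (x : 𝓞 L) :
    frob L G w • x - x ^ ell L w ∈ w.asIdeal :=
  IsArithFrobAt.arithFrobAt ℤ G w.asIdeal x

lemma eq_frob_of_forall {w : HeightOneSpectrum (𝓞 L)} (hw : w.asIdeal.inertia G = ⊥) {σ : G}
    (hσ : ∀ x : 𝓞 L, σ • x - x ^ ell L w ∈ w.asIdeal) : σ = frob L G w := by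
  have h1 : IsArithFrobAt ℤ σ w.asIdeal := hσ
  have h2 := h1.mul_inv_mem_inertia (IsArithFrobAt.arithFrobAt ℤ G w.asIdeal)
  rw [hw, Subgroup.mem_bot] at h2
  exact mul_inv_eq_one.mp h2

end Frob

end Fermat.Agent.Lib.FrobDensity
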