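import Fermat.Agent.Lib.FrobDensity.Basic
import Fermat.Agent.Lib.Frobenius

/-!
# Frobenius density theorem: from finite level to valuation subrings of `ℚ̄`
-/

set_option autoImplicit false

namespace Fermat.Agent.Lib.FrobDensity

open NumberField IsDedekindDomain

/-- The finite-level statement (proved by helper60 in Finite.lean). -/
def FiniteLevel : Prop :=
  ∀ (L : Type) [Field L] [NumberField L] [IsGalois ℚ L] (g : L ≃ₐ[ℚ] L) (N : ℕ), N ≠ 0 →
    ∃ w : HeightOneSpectrum (𝓞 L), ¬ ell L w ∣ N ∧ w.asIdeal.inertia (L ≃ₐ[ℚ] L) = ⊥ ∧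
      Subgroup.zpowers (frob L (L ≃ₐ[ℚ] L) w) = Subgroup.zpowers g

/-- A Frobenius element at `A` satisfies the Frobenius congruence on all of `A`. -/
theorem Qbar_sub_pow_mem_nonunits {K L : Type*} [Field K] [Field L] [Algebra K L]
    {A : ValuationSubring L} {σ : L ≃ₐ[K] L} {ℓ : ℕ} (h : A.IsFrobeniusAt σ ℓ) {a : L}
    (ha : a ∈ A) : σ a - a ^ ℓ ∈ A.nonunits := by
  obtain ⟨hσ, h⟩ := h
  have h1 := h (IsLocalRing.residue A ⟨a, ha⟩)
  rw [← IsLocalRing.ResidueField.residue_smul, ← map_pow, ← sub_eq_zero, ← map_sub,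
    IsLocalRing.residue_eq_zero_iff, ← A.coe_mem_nonunits_iff] at h1
  exact h1

/-- Existence of a valuation subring of a field `Ω` centred at a given proper ideal of a ring
mapping injectively to `Ω`. -/
theorem Qbar_exists_valuationSubring {B Ω : Type*} [CommRing B] [Field Ω] (f : B →+* Ω)
    (hf : Function.Injective f) (I : Ideal B) (hI : I ≠ ⊤) :
    ∃ A : ValuationSubring Ω, (∀ b, f b ∈ A) ∧ ∀ b ∈ I, f b ∈ A.nonunits := by
  have hJ : I.map f.rangeRestrict ≠ ⊤ := by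
    intro h
    have h1 : (1 : f.range) ∈ I.map f.rangeRestrict := by rw [h]; trivial
    rw [Ideal.mem_map_iff_of_surjective _ f.rangeRestrict_surjective] at h1
    obtain ⟨x, hx, hx1⟩ := h1
    have h2 : f x = f 1 := by
      rw [map_one]
      exact congrArg Subtype.val hx1
    rw [hf h2] at hx
    exact hI ((Ideal.eq_top_iff_one I).mpr hx)
  obtain ⟨A, hA1, hA2⟩ := Ideal.image_subset_nonunits_valuationSubring _ hJ
  refine ⟨A, fun b => hA1 ⟨b, rfl⟩, fun b hb => ?_⟩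
  exact hA2 ⟨f.rangeRestrict b, Ideal.mem_map_of_mem _ hb, rfl⟩

theorem exists_frobenius_zpowers_of (H : FiniteLevel)
    {X : Type*} [Group X] [TopologicalSpace X] [DiscreteTopology X]
    (φ : (AlgebraicClosure ℚ ≃ₐ[ℚ] AlgebraicClosure ℚ) →* X) (hφ : Continuous φ)
    (g : AlgebraicClosure ℚ ≃ₐ[ℚ] AlgebraicClosure ℚ) (T : Finset ℕ) :
    ∃ (ℓ : ℕ) (A : ValuationSubring (AlgebraicClosure ℚ))
      (σ : AlgebraicClosure ℚ ≃ₐ[ℚ] AlgebraicClosure ℚ),
      ℓ.Prime ∧ ℓ ∉ T ∧ A.LiesOverPrime ℓ ∧ A.IsFrobeniusAt σ ℓ ∧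
        Subgroup.zpowers (φ σ) = Subgroup.zpowers (φ g) := by
  classical
  have hgal := Fermat.Agent.Lib.Frobenius.isGalois_algebraicClosure inferInstance
  -- step 1: a finite normal extension through which `φ` factors
  have hker : ((φ.ker : Subgroup _) : Set (AlgebraicClosure ℚ ≃ₐ[ℚ] AlgebraicClosure ℚ))
      ∈ nhds (1 : AlgebraicClosure ℚ ≃ₐ[ℚ] AlgebraicClosure ℚ) := by
    have hopen : IsOpen (φ ⁻¹' {1}) := (isOpen_discrete {(1 : X)}).preimage hφ
    refine hopen.mem_nhds ?_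
    simp
  rw [krullTopology_mem_nhds_one_iff_of_normal] at hker
  obtain ⟨E, hEfin, hEnorm, hE⟩ := hker
  have : FiniteDimensional ℚ ↥E := hEfin
  have : Normal ℚ ↥E := hEnorm
  have : NumberField ↥E := NumberField.mk
  have : IsGalois ℚ ↥E := ⟨⟩
  -- step 2: apply the finite level statement
  let ρ : (AlgebraicClosure ℚ ≃ₐ[ℚ] AlgebraicClosure ℚ) →* (↥E ≃ₐ[ℚ] ↥E) :=
    AlgEquiv.restrictNormalHom ↥E
  have hρ : ∀ (τ : AlgebraicClosure ℚ ≃ₐ[ℚ] AlgebraicClosure ℚ) (e : ↥E),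
      ((ρ τ e : ↥E) : AlgebraicClosure ℚ) = τ (e : AlgebraicClosure ℚ) :=
    fun τ e => AlgEquiv.restrictNormal_commutes τ ↥E e
  have hρker : ∀ τ : AlgebraicClosure ℚ ≃ₐ[ℚ] AlgebraicClosure ℚ, ρ τ = 1 → φ τ = 1 := by
    intro τ hτ
    have h1 : τ ∈ E.fixingSubgroup := by
      rw [IntermediateField.mem_fixingSubgroup_iff]
      intro x hx
      have h2 := hρ τ ⟨x, hx⟩
      rw [hτ] at h2
      exact h2.symm
    exact hE h1
  set N : ℕ := ∏ t ∈ T, (if t = 0 then 1 else t) with hN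
  have hN0 : N ≠ 0 := by
    rw [hN, Finset.prod_ne_zero_iff]
    intro t _
    split_ifs with h
    · exact one_ne_zero
    · exact h
  obtain ⟨w, hwN, hwI, hwz⟩ := H ↥E (ρ g) N hN0
  set ℓ : ℕ := ell ↥E w with hℓdef
  have hℓ : ℓ.Prime := ell_prime ↥E w
  have hℓT : ℓ ∉ T := by
    intro h
    apply hwN
    have h1 : (if ℓ = 0 then 1 else ℓ) ∣ N := Finset.dvd_prod_of_mem _ h
    rwa [if_neg hℓ.ne_zero] at h1
  -- step 3: a valuation subring centred at `w`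
  let f : 𝓞 ↥E →+* AlgebraicClosure ℚ :=
    (algebraMap ↥E (AlgebraicClosure ℚ)).comp (algebraMap (𝓞 ↥E) ↥E)
  have hf : Function.Injective f :=
    (algebraMap ↥E (AlgebraicClosure ℚ)).injective.comp RingOfIntegers.coe_injective
  obtain ⟨A, hA1, hA2⟩ := Qbar_exists_valuationSubring f hf w.asIdeal w.isPrime.ne_top
  have hAℓ : A.LiesOverPrime ℓ := by
    have h1 : ((ℓ : ℕ) : 𝓞 ↥E) ∈ w.asIdeal := (natCast_mem_iff ↥E w ℓ).mpr dvd_rfl
    have h2 := hA2 _ h1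
    rwa [map_natCast] at h2
  -- step 4: a Frobenius element
  obtain ⟨σ, hσ⟩ := Fermat.Agent.Lib.Frobenius.exists_isFrobeniusAt A hℓ hAℓ
  -- step 5: its restriction is the Frobenius element at `w`
  have hmem : ∀ y : 𝓞 ↥E, f y ∈ A.nonunits → y ∈ w.asIdeal := by
    intro y hy
    by_contra hyw
    have hmax : w.asIdeal.IsMaximal := w.isMaximal
    obtain ⟨z, hz⟩ := hmax.exists_inv hyw
    obtain ⟨u, hu, hzu⟩ := hz
    apply Fermat.Agent.Lib.Frobenius.one_not_mem_nonunits A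
    have h1 : (1 : AlgebraicClosure ℚ) = f z * f y + f u := by
      rw [← map_mul, ← map_add, hzu, map_one]
    rw [h1]
    exact A.nonunits.add_mem (Fermat.Agent.Lib.Frobenius.mul_mem_nonunits A (hA1 z) hy) (hA2 u hu)
  have hfrob : ρ σ = frob ↥E (↥E ≃ₐ[ℚ] ↥E) w := by
    apply eq_frob_of_forall ↥E (↥E ≃ₐ[ℚ] ↥E) hwI
    intro x
    apply hmem
    have h1 : f (ρ σ • x - x ^ ell ↥E w) = σ (f x) - (f x) ^ ℓ := by
      rw [map_sub, map_pow]
      congr 1
      exact hρ σ (x : ↥E)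
    rw [h1]
    exact Qbar_sub_pow_mem_nonunits hσ (hA1 x)
  -- step 6: conclusion
  refine ⟨ℓ, A, σ, hℓ, hℓT, hAℓ, hσ, ?_⟩
  rw [← hfrob] at hwz
  have key : ∀ a b : AlgebraicClosure ℚ ≃ₐ[ℚ] AlgebraicClosure ℚ,
      ρ a ∈ Subgroup.zpowers (ρ b) → φ a ∈ Subgroup.zpowers (φ b) := by
    intro a b hab
    obtain ⟨k, hk⟩ := Subgroup.mem_zpowers_iff.mp hab
    refine Subgroup.mem_zpowers_iff.mpr ⟨k, ?_⟩
    have h1 : ρ (a⁻¹ * b ^ k) = 1 := by
      rw [map_mul, map_inv, map_zpow, hk, inv_mul_cancel]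
    have h2 := hρker _ h1
    rw [map_mul, map_inv, map_zpow, inv_mul_eq_one] at h2
    exact h2.symm
  apply le_antisymm
  · rw [Subgroup.zpowers_le]
    exact key σ g (hwz ▸ Subgroup.mem_zpowers _)
  · rw [Subgroup.zpowers_le]
    exact key g σ (hwz ▸ Subgroup.mem_zpowers _)

end Fermat.Agent.Lib.FrobDensity
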