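import Fermat.Agent.Lib.FrobDensity.Finite
import Fermat.Agent.Lib.FrobDensity.Qbar

/-!
# The Frobenius density theorem (existence form)

Main statements:

* `exists_zpowers_frob_eq` (in `Finite.lean`): finite level, primes of `𝓞 L`;
* `exists_frobenius_zpowers`: for a continuous homomorphism `φ` from `Gal(ℚ̄/ℚ)` to a discrete
  group, every cyclic subgroup `⟨φ g⟩` is `⟨φ σ⟩` for a Frobenius element `σ` at a prime outside any
  given finite set;
* `exists_frobenius_pow`: the same on a finite dimensional subextension `F` of `ℚ̄`: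
  `σ ^ b = g` and `g ^ a = σ` on `F`.
-/

set_option autoImplicit false

namespace Fermat.Agent.Lib.FrobDensity

open NumberField IsDedekindDomain

theorem finiteLevel : FiniteLevel := by
  intro L _ _ _ g N hN
  exact exists_zpowers_frob_eq L (L ≃ₐ[ℚ] L) g N hN

/-- **Frobenius density theorem** for continuous homomorphisms to discrete groups. -/
theorem exists_frobenius_zpowers
    {X : Type*} [Group X] [TopologicalSpace X] [DiscreteTopology X]
    (φ : (AlgebraicClosure ℚ ≃ₐ[ℚ] AlgebraicClosure ℚ) →* X) (hφ : Continuous φ)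
    (g : AlgebraicClosure ℚ ≃ₐ[ℚ] AlgebraicClosure ℚ) (T : Finset ℕ) :
    ∃ (ℓ : ℕ) (A : ValuationSubring (AlgebraicClosure ℚ))
      (σ : AlgebraicClosure ℚ ≃ₐ[ℚ] AlgebraicClosure ℚ),
      ℓ.Prime ∧ ℓ ∉ T ∧ A.LiesOverPrime ℓ ∧ A.IsFrobeniusAt σ ℓ ∧
        Subgroup.zpowers (φ σ) = Subgroup.zpowers (φ g) :=
  exists_frobenius_zpowers_of finiteLevel φ hφ g T

/-- **Frobenius density theorem** on a finite dimensional subextension of `ℚ̄`. -/
theorem exists_frobenius_pow (F : IntermediateField ℚ (AlgebraicClosure ℚ))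
    [FiniteDimensional ℚ F] (g : AlgebraicClosure ℚ ≃ₐ[ℚ] AlgebraicClosure ℚ) (T : Finset ℕ) :
    ∃ (ℓ : ℕ) (A : ValuationSubring (AlgebraicClosure ℚ))
      (σ : AlgebraicClosure ℚ ≃ₐ[ℚ] AlgebraicClosure ℚ) (a b : ℕ),
      ℓ.Prime ∧ ℓ ∉ T ∧ A.LiesOverPrime ℓ ∧ A.IsFrobeniusAt σ ℓ ∧
        (∀ x ∈ F, (σ ^ b) x = g x) ∧ (∀ x ∈ F, (g ^ a) x = σ x) := by
  have hgal := Fermat.Agent.Lib.Frobenius.isGalois_algebraicClosure inferInstance
  have hnor : Normal ℚ (AlgebraicClosure ℚ) := hgal.to_normal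
  let E : IntermediateField ℚ (AlgebraicClosure ℚ) :=
    IntermediateField.normalClosure ℚ F (AlgebraicClosure ℚ)
  have hFE : F ≤ E := IntermediateField.le_normalClosure F
  have : Normal ℚ E := normalClosure.normal ℚ F (AlgebraicClosure ℚ)
  have : FiniteDimensional ℚ E := normalClosure.is_finiteDimensional ℚ F (AlgebraicClosure ℚ)
  let φ : (AlgebraicClosure ℚ ≃ₐ[ℚ] AlgebraicClosure ℚ) →* (E ≃ₐ[ℚ] E) :=
    AlgEquiv.restrictNormalHom E
  have hφ : Continuous φ := InfiniteGalois.restrictNormalHom_continuous E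
  obtain ⟨ℓ, A, σ, h1, h2, h3, h4, h5⟩ := exists_frobenius_zpowers φ hφ g T
  have hg : φ g ∈ Submonoid.powers (φ σ) := by
    rw [mem_powers_iff_mem_zpowers, h5]
    exact Subgroup.mem_zpowers _
  have hσ : φ σ ∈ Submonoid.powers (φ g) := by
    rw [mem_powers_iff_mem_zpowers, ← h5]
    exact Subgroup.mem_zpowers _
  obtain ⟨b, hb⟩ := hg
  obtain ⟨a, ha⟩ := hσ
  have key : ∀ τ τ' : AlgebraicClosure ℚ ≃ₐ[ℚ] AlgebraicClosure ℚ, φ τ = φ τ' →
      ∀ x ∈ F, τ x = τ' x := by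
    intro τ τ' h x hx
    have h6 := DFunLike.congr_fun h (⟨x, hFE hx⟩ : E)
    have h7 := congrArg (algebraMap E (AlgebraicClosure ℚ)) h6
    simpa [φ, AlgEquiv.restrictNormalHom, AlgEquiv.restrictNormal_commutes] using h7
  refine ⟨ℓ, A, σ, a, b, h1, h2, h3, h4, key _ _ ?_, key _ _ ?_⟩
  · rw [map_pow]; exact hb
  · rw [map_pow]; exact ha

end Fermat.Agent.Lib.FrobDensity
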