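import Fermat.Agent.Lib.FrobDensity.Basic

/-!
# Frobenius density theorem: the inertia groups are trivial outside a finite set of primes
-/

namespace Fermat.Agent.Lib.FrobDensity

open NumberField IsDedekindDomain

variable (L : Type*) [Field L] [NumberField L] (G : Type*) [Group G] [Finite G]
  [MulSemiringAction G L] [IsGaloisGroup G ℚ L]

/-- There is a nonzero integer `N` such that the inertia group (in `G`) of every prime `w` of `L`
not above a prime divisor of `N` is trivial. -/
theorem exists_inertia_eq_bot : ∃ N : ℕ, N ≠ 0 ∧ ∀ w : HeightOneSpectrum (𝓞 L),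
    ¬ ell L w ∣ N → w.asIdeal.inertia G = ⊥ := by
  classical
  cases nonempty_fintype G
  have hf : FaithfulSMul G (𝓞 L) := (inferInstance : IsGaloisGroup G ℤ (𝓞 L)).faithful
  have hx : ∀ σ : G, ∃ x : 𝓞 L, σ ≠ 1 → σ • x - x ≠ 0 := by
    intro σ
    by_cases hσ : σ = 1
    · exact ⟨0, fun h => absurd hσ h⟩
    · by_contra hcon
      push Not at hcon
      apply hσ
      apply hf.eq_of_smul_eq_smul
      intro x
      rw [one_smul]
      exact sub_eq_zero.mp (hcon x).2
  choose x hx using hx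
  set δ : 𝓞 L := ∏ σ ∈ Finset.univ.filter (fun σ : G => σ ≠ 1), (σ • x σ - x σ) with hδ
  have hδ0 : δ ≠ 0 := by
    rw [hδ, Finset.prod_ne_zero_iff]
    intro σ hσ
    exact hx σ (Finset.mem_filter.mp hσ).2
  refine ⟨Ideal.absNorm (Ideal.span {δ}), ?_, fun w hw => ?_⟩
  · rw [Ne, Ideal.absNorm_eq_zero_iff, Ideal.span_singleton_eq_bot]
    exact hδ0
  · rw [Subgroup.eq_bot_iff_forall]
    intro σ hσ
    by_contra hne
    apply hw
    rw [← natCast_mem_iff]
    have h1 : σ • x σ - x σ ∈ w.asIdeal := hσ (x σ)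
    have h2 : δ ∈ w.asIdeal := by
      rw [hδ]
      exact Ideal.mem_of_dvd _ (Finset.dvd_prod_of_mem _ (Finset.mem_filter.mpr ⟨Finset.mem_univ _, hne⟩)) h1
    have h3 : Ideal.span {δ} ≤ w.asIdeal := (Ideal.span_singleton_le_iff_mem _).mpr h2
    exact h3 (Ideal.absNorm_mem _)

end Fermat.Agent.Lib.FrobDensity
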