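import Mathlib
import Fermat.Agent.CFT.EX0

/-!
# Frobenius density theorem: common definitions

`Close a b` : two `ℝ≥0∞`-valued functions of `s` differ by a bounded amount as `s → 1⁺`.
`lam s = log (1/(s-1))`, `nw s n = n^(-s)`, `ell w` = rational prime below a prime `w`.
-/

namespace Fermat.Agent.Lib.FrobDensity

open NumberField IsDedekindDomain Filter Topology
open scoped ENNReal NNReal

/-- `log (1/(s-1))` as an extended nonnegative real. -/
noncomputable def lam (s : ℝ) : ℝ≥0∞ := ENNReal.ofReal (Real.log (1 / (s - 1)))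

/-- `n ^ (-s)` as an extended nonnegative real. -/
noncomputable def nw (s : ℝ) (n : ℕ) : ℝ≥0∞ := (((n : ℝ≥0) ^ (-s) : ℝ≥0) : ℝ≥0∞)

/-- `a` and `b` differ by a bounded amount as `s → 1⁺`. -/
def Close (a b : ℝ → ℝ≥0∞) : Prop :=
  ∃ C : ℝ≥0, ∀ᶠ s in 𝓝[>] (1 : ℝ), a s ≤ b s + C ∧ b s ≤ a s + C

/-- The rational prime (as a natural number) below a prime of `𝓞 L`. -/
noncomputable def ell (L : Type*) [Field L] [NumberField L] (w : HeightOneSpectrum (𝓞 L)) : ℕ :=
  Nat.card (ℤ ⧸ w.asIdeal.under ℤ)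

/-- The absolute norm of a prime of `𝓞 L`. -/
noncomputable def nrm (L : Type*) [Field L] [NumberField L] (w : HeightOneSpectrum (𝓞 L)) : ℕ :=
  Ideal.absNorm w.asIdeal

/-- The mass of the primes of absolute degree one not dividing `N`. -/
noncomputable def mass1 (M : Type*) [Field M] [NumberField M] (N : ℕ) (s : ℝ) : ℝ≥0∞ :=
  ∑' v : HeightOneSpectrum (𝓞 M),
    Set.indicator {v | (nrm M v).Prime ∧ ¬ nrm M v ∣ N} (fun v => nw s (nrm M v)) v

end Fermat.Agent.Lib.FrobDensity
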