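import Fermat.Agent.Lib.FrobDensity.Basic

/-!
# Frobenius density theorem: the primes of degree `≥ 2` or dividing `N` have bounded mass
-/

namespace Fermat.Agent.Lib.FrobDensity

open NumberField IsDedekindDomain Filter Topology
open scoped ENNReal NNReal

section DegOne

variable (M : Type*) [Field M] [NumberField M]

set_option linter.deprecated false in
/-- The number of primes of `M` above a given rational prime is at most `[M : ℚ]`. -/
lemma fibre_ell_finite_card_le (n : ℕ) :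
    ∃ _ : Fintype {v : HeightOneSpectrum (𝓞 M) // ell M v = n},
      Fintype.card {v : HeightOneSpectrum (𝓞 M) // ell M v = n} ≤ Module.finrank ℚ M := by
  classical
  by_cases hne : Nonempty {v : HeightOneSpectrum (𝓞 M) // ell M v = n}
  · obtain ⟨v₀, hv₀⟩ := hne
    have hn : n.Prime := hv₀ ▸ ell_prime M v₀
    have hp0 : Ideal.span {(n : ℤ)} ≠ ⊥ := by
      simpa using hn.ne_zero
    have hpr : (Ideal.span {(n : ℤ)}).IsPrime := by
      rw [Ideal.span_singleton_prime (by exact_mod_cast hn.ne_zero)]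
      exact Nat.prime_iff_prime_int.mp hn
    have hmax : (Ideal.span {(n : ℤ)}).IsMaximal := hpr.isMaximal hp0
    let f : {v : HeightOneSpectrum (𝓞 M) // ell M v = n} →
        IsDedekindDomain.primesOverFinset (Ideal.span {(n : ℤ)}) (𝓞 M) := fun v =>
      ⟨v.1.asIdeal, (IsDedekindDomain.mem_primesOverFinset_iff hp0 _).mpr
        ⟨v.1.isPrime, by
          obtain ⟨v, rfl⟩ := v
          infer_instance⟩⟩
    have hf : Function.Injective f := by
      intro v w h
      apply Subtype.ext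
      apply HeightOneSpectrum.ext
      exact congrArg Subtype.val h
    have hfin : Finite {v : HeightOneSpectrum (𝓞 M) // ell M v = n} := Finite.of_injective f hf
    let _ : Fintype {v : HeightOneSpectrum (𝓞 M) // ell M v = n} := Fintype.ofFinite _
    refine ⟨inferInstance, ?_⟩
    calc Fintype.card {v : HeightOneSpectrum (𝓞 M) // ell M v = n}
        ≤ Fintype.card (IsDedekindDomain.primesOverFinset (Ideal.span {(n : ℤ)}) (𝓞 M)) :=
          Fintype.card_le_of_injective f hf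
      _ = (IsDedekindDomain.primesOverFinset (Ideal.span {(n : ℤ)}) (𝓞 M)).card :=
          Fintype.card_coe _
      _ ≤ Module.finrank ℚ M := Ideal.card_primesOverFinset_le_finrank (𝓞 M) ℚ M hp0
  · have : IsEmpty {v : HeightOneSpectrum (𝓞 M) // ell M v = n} := not_nonempty_iff.mp hne
    exact ⟨Fintype.ofIsEmpty, by simp⟩

/-- Summing a function of `ell v` over all primes `v`. -/
lemma tsum_comp_ell_le (b : ℕ → ℝ≥0∞) :
    ∑' v : HeightOneSpectrum (𝓞 M), b (ell M v) ≤ (Module.finrank ℚ M : ℝ≥0∞) * ∑' n, b n := by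
  rw [← (Equiv.sigmaFiberEquiv (fun v : HeightOneSpectrum (𝓞 M) => ell M v)).tsum_eq,
    ENNReal.tsum_sigma', ← ENNReal.tsum_mul_left]
  refine ENNReal.tsum_le_tsum fun n => ?_
  obtain ⟨hft, hcard⟩ := fibre_ell_finite_card_le M n
  rw [tsum_fintype]
  have : ∀ v : {v : HeightOneSpectrum (𝓞 M) // ell M v = n},
      b (ell M ((Equiv.sigmaFiberEquiv fun v : HeightOneSpectrum (𝓞 M) => ell M v) ⟨n, v⟩)) =
        b n := by
    intro v
    simp [Equiv.sigmaFiberEquiv, v.2]
  rw [Finset.sum_congr rfl (fun v _ => this v), Finset.sum_const, nsmul_eq_mul, Finset.card_univ]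
  gcongr

lemma nw_anti {s t : ℝ} {m n : ℕ} (hm : 1 ≤ m) (hmn : (m : ℝ) ^ t ≤ (n : ℝ) ^ s) :
    nw s n ≤ nw t m := by
  unfold nw
  rw [ENNReal.coe_le_coe, ← NNReal.coe_le_coe]
  push_cast
  rw [Real.rpow_neg (Nat.cast_nonneg _), Real.rpow_neg (Nat.cast_nonneg _)]
  have h0 : (0 : ℝ) < (m : ℝ) ^ t := Real.rpow_pos_of_pos (by exact_mod_cast hm) _
  exact inv_anti₀ h0 hmn

lemma nw_le_one {s : ℝ} (hs : 0 < s) (n : ℕ) : nw s n ≤ 1 := by
  rcases Nat.eq_zero_or_pos n with rfl | hn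
  · simp [nw, NNReal.zero_rpow (neg_ne_zero.mpr hs.ne')]
  · have := nw_anti (s := s) (t := 0) (m := 1) (n := n) le_rfl (by
      simp only [Nat.cast_one, Real.rpow_zero]
      exact Real.one_le_rpow (by exact_mod_cast hn) hs.le)
    simpa [nw] using this

lemma tsum_nw_two_ne_top : ∑' n : ℕ, nw 2 n ≠ ∞ := by
  unfold nw
  rw [ENNReal.tsum_coe_ne_top_iff_summable, NNReal.summable_rpow]
  norm_num

lemma tsum_dvd_ne_top {N : ℕ} (hN : N ≠ 0) :
    ∑' n : ℕ, (if n ∣ N then (1 : ℝ≥0∞) else 0) ≠ ∞ := by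
  rw [tsum_eq_sum (s := N.divisors)]
  · exact (ENNReal.sum_lt_top.mpr fun n _ => by split_ifs <;> simp).ne
  · intro n hn
    rw [if_neg]
    intro h
    exact hn (Nat.mem_divisors.mpr ⟨h, hN⟩)

/-- pointwise bound for the weight of a "bad" prime -/
lemma nw_nrm_le_of_bad {N : ℕ} {s : ℝ} (hs : 1 ≤ s) (v : HeightOneSpectrum (𝓞 M))
    (hv : ¬ ((nrm M v).Prime ∧ ¬ nrm M v ∣ N)) :
    nw s (nrm M v) ≤ nw 2 (ell M v) + (if ell M v ∣ N then (1 : ℝ≥0∞) else 0) := by
  have hℓ := ell_prime M v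
  by_cases h1 : (nrm M v).Prime
  · have h2 : nrm M v ∣ N := by
      by_contra h
      exact hv ⟨h1, h⟩
    rw [(nrm_prime_iff M v).mp h1] at h2
    rw [if_pos h2]
    exact (nw_le_one (by linarith) _).trans le_add_self
  · refine le_trans ?_ le_self_add
    have hf : 2 ≤ v.asIdeal.inertiaDeg ℤ := by
      have h3 := inertiaDeg_pos M v
      have h4 : v.asIdeal.inertiaDeg ℤ ≠ 1 := by
        intro h
        exact h1 ((nrm_prime_iff M v).mpr ((nrm_eq_ell_iff M v).mpr h))
      omega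
    apply nw_anti hℓ.one_le
    have h5 : (1 : ℝ) ≤ (ell M v : ℝ) := by exact_mod_cast hℓ.one_le
    have h6 : (ell M v : ℝ) ^ 2 ≤ (nrm M v : ℝ) := by
      rw [← ell_pow_inertiaDeg]
      push_cast
      exact pow_le_pow_right₀ h5 hf
    have h7 : (1 : ℝ) ≤ (nrm M v : ℝ) := le_trans (one_le_pow₀ h5) h6
    calc (ell M v : ℝ) ^ (2 : ℝ) = (ell M v : ℝ) ^ 2 := by
          rw [← Real.rpow_natCast]; norm_num
      _ ≤ (nrm M v : ℝ) := h6
      _ = (nrm M v : ℝ) ^ (1 : ℝ) := (Real.rpow_one _).symm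
      _ ≤ (nrm M v : ℝ) ^ s := Real.rpow_le_rpow_of_exponent_le h7 hs

/-- The primes of absolute degree `≥ 2` and the primes dividing `N` have bounded mass. -/
theorem close_mass1_total (N : ℕ) (hN : N ≠ 0) :
    Close (mass1 M N) (fun s => ∑' v : HeightOneSpectrum (𝓞 M), nw s (nrm M v)) := by
  set b : ℕ → ℝ≥0∞ := fun n => nw 2 n + (if n ∣ N then (1 : ℝ≥0∞) else 0) with hb
  have hbfin : (Module.finrank ℚ M : ℝ≥0∞) * ∑' n, b n ≠ ∞ := by
    refine ENNReal.mul_ne_top (ENNReal.natCast_ne_top _) ?_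
    rw [hb, ENNReal.tsum_add]
    exact ENNReal.add_ne_top.mpr ⟨tsum_nw_two_ne_top, tsum_dvd_ne_top hN⟩
  refine ⟨((Module.finrank ℚ M : ℝ≥0∞) * ∑' n, b n).toNNReal, ?_⟩
  rw [ENNReal.coe_toNNReal hbfin]
  filter_upwards [self_mem_nhdsWithin] with s hs
  have hs1 : (1 : ℝ) ≤ s := le_of_lt hs
  set G : Set (HeightOneSpectrum (𝓞 M)) := {v | (nrm M v).Prime ∧ ¬ nrm M v ∣ N} with hG
  have hsplit : ∑' v : HeightOneSpectrum (𝓞 M), nw s (nrm M v) =
      mass1 M N s + ∑' v, Set.indicator Gᶜ (fun v => nw s (nrm M v)) v := by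
    unfold mass1
    rw [← ENNReal.tsum_add]
    refine tsum_congr fun v => ?_
    rw [← Pi.add_apply, Set.indicator_self_add_compl]
  have hbad : ∑' v, Set.indicator Gᶜ (fun v => nw s (nrm M v)) v ≤
      (Module.finrank ℚ M : ℝ≥0∞) * ∑' n, b n := by
    refine le_trans (ENNReal.tsum_le_tsum fun v => ?_) (tsum_comp_ell_le M b)
    by_cases hv : v ∈ G
    · rw [Set.indicator_of_notMem (by simpa using hv)]
      exact zero_le
    · rw [Set.indicator_of_mem (by simpa using hv)]
      exact nw_nrm_le_of_bad M hs1 v hv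
  constructor
  · rw [hsplit]
    exact le_add_right le_self_add
  · rw [hsplit]
    gcongr

theorem close_mass1_of (N : ℕ) (hN : N ≠ 0)
    (h : Close (fun s => ∑' v : HeightOneSpectrum (𝓞 M), nw s (nrm M v)) lam) :
    Close (mass1 M N) lam :=
  (close_mass1_total M N hN).trans h

end DegOne

end Fermat.Agent.Lib.FrobDensity
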