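import Fermat.Agent.Lib.FrobDensity.Basic

/-!
# Frobenius density theorem, T1: `∑_𝔭 N𝔭^{-s} = log (1/(s-1)) + O(1)` as `s → 1⁺`
-/

namespace Fermat.Agent.Lib.FrobDensity

open NumberField IsDedekindDomain Filter Topology
open scoped ENNReal NNReal
open Fermat.Agent.CFT.EX0

section RealLemmas

lemma Euler_exp_le_one_add {x : ℝ} (hx : 0 ≤ x) : Real.exp (x - x ^ 2) ≤ 1 + x := by
  have h1 : 1 - (x - x ^ 2) ≤ Real.exp (-(x - x ^ 2)) := Real.one_sub_le_exp_neg _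
  have h2 : 0 < 1 - (x - x ^ 2) := by nlinarith [sq_nonneg (x - 1 / 2)]
  have h3 : 0 < Real.exp (x - x ^ 2) := Real.exp_pos _
  have h4 : Real.exp (-(x - x ^ 2)) * Real.exp (x - x ^ 2) = 1 := by
    rw [← Real.exp_add]; simp
  have h5 : (1 - (x - x ^ 2)) * Real.exp (x - x ^ 2) ≤ 1 := by
    calc (1 - (x - x ^ 2)) * Real.exp (x - x ^ 2)
        ≤ Real.exp (-(x - x ^ 2)) * Real.exp (x - x ^ 2) := by gcongr
      _ = 1 := h4
  have h6 : (1 : ℝ) ≤ (1 - (x - x ^ 2)) * (1 + x) := by nlinarith [pow_nonneg hx 3]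
  by_contra hcon
  push Not at hcon
  have : (1 - (x - x ^ 2)) * (1 + x) < (1 - (x - x ^ 2)) * Real.exp (x - x ^ 2) :=
    mul_lt_mul_of_pos_left hcon h2
  linarith

lemma Euler_one_le_mul_exp {x : ℝ} (hx : 0 ≤ x) (hx' : x ≤ 1 / 2) :
    1 ≤ (1 - x) * Real.exp (x + 2 * x ^ 2) := by
  have h0 : 0 < 1 - x := by linarith
  have h1 : x / (1 - x) + 1 ≤ Real.exp (x / (1 - x)) := Real.add_one_le_exp _
  have h2 : x / (1 - x) ≤ x + 2 * x ^ 2 := by
    rw [div_le_iff₀ h0]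
    nlinarith [pow_nonneg hx 2, pow_nonneg hx 3, mul_nonneg (pow_nonneg hx 2) (by linarith : 0 ≤ 1 / 2 - x)]
  have h3 : Real.exp (x / (1 - x)) ≤ Real.exp (x + 2 * x ^ 2) := Real.exp_le_exp.mpr h2
  have h4 : (1 - x) * (x / (1 - x) + 1) = 1 := by field_simp; ring
  calc (1 : ℝ) = (1 - x) * (x / (1 - x) + 1) := h4.symm
    _ ≤ (1 - x) * Real.exp (x + 2 * x ^ 2) := by gcongr; exact h1.trans h3

/-- `a ≤ b + x a` implies `a ≤ exp (x + 2 x²) b`. -/
lemma Euler_ennreal_step {a b : ℝ≥0∞} {x : ℝ} (hx : 0 ≤ x) (hx' : x ≤ 1 / 2) (ha : a ≠ ∞)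
    (h : a ≤ b + ENNReal.ofReal x * a) : a ≤ ENNReal.ofReal (Real.exp (x + 2 * x ^ 2)) * b := by
  rcases eq_or_ne b ∞ with rfl | hb
  · rw [ENNReal.mul_top (by simpa using Real.exp_pos _)]
    exact le_top
  lift a to ℝ≥0 using ha
  lift b to ℝ≥0 using hb
  rw [← ENNReal.ofReal_coe_nnreal (p := a), ← ENNReal.ofReal_coe_nnreal (p := b)] at h ⊢
  have ha0 : (0 : ℝ) ≤ a := a.coe_nonneg
  have hb0 : (0 : ℝ) ≤ b := b.coe_nonneg
  rw [← ENNReal.ofReal_mul hx, ← ENNReal.ofReal_add hb0 (mul_nonneg hx ha0),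
    ENNReal.ofReal_le_ofReal_iff (add_nonneg hb0 (mul_nonneg hx ha0))] at h
  rw [← ENNReal.ofReal_mul (Real.exp_pos _).le,
    ENNReal.ofReal_le_ofReal_iff (mul_nonneg (Real.exp_pos _).le hb0)]
  have h1 := Euler_one_le_mul_exp hx hx'
  have h2 : (1 - x) * (a : ℝ) ≤ b := by linarith
  have he := (Real.exp_pos (x + 2 * x ^ 2)).le
  calc (a : ℝ) = 1 * a := (one_mul _).symm
    _ ≤ ((1 - x) * Real.exp (x + 2 * x ^ 2)) * a := by gcongr
    _ = Real.exp (x + 2 * x ^ 2) * ((1 - x) * a) := by ring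
    _ ≤ Real.exp (x + 2 * x ^ 2) * b := by gcongr

end RealLemmas

section Weights

variable (M : Type*) [Field M] [NumberField M]

/-- the real weight `N(I)^(-s)`. -/
noncomputable def Euler_x (s : ℝ) (I : Ideal (𝓞 M)) : ℝ := (Ideal.absNorm I : ℝ) ^ (-s)

lemma Euler_x_nonneg (s : ℝ) (I : Ideal (𝓞 M)) : 0 ≤ Euler_x M s I :=
  Real.rpow_nonneg (Nat.cast_nonneg _) _

lemma Euler_wt_eq (s : ℝ) (I : Ideal (𝓞 M)) : wt M s I = ENNReal.ofReal (Euler_x M s I) := by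
  rw [wt, Euler_x, ENNReal.ofReal, ENNReal.coe_inj]
  ext
  simp [Real.coe_toNNReal _ (Real.rpow_nonneg (Nat.cast_nonneg _) (-s))]

lemma Euler_x_le_half {s : ℝ} (hs : 1 ≤ s) {I : Ideal (𝓞 M)} (hI : I ≠ ⊤) :
    Euler_x M s I ≤ 1 / 2 := by
  have h := wt_le_half M hs hI
  rw [Euler_wt_eq] at h
  have h2 : (2⁻¹ : ℝ≥0∞) = ENNReal.ofReal (1 / 2) := by
    rw [one_div, ENNReal.ofReal_inv_of_pos (by norm_num)]
    simp
  rw [h2, ENNReal.ofReal_le_ofReal_iff (by norm_num)] at h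
  exact h

lemma Euler_x_sq_le {s s₀ : ℝ} (hs : 1 ≤ s) (hs₀ : s₀ ≤ 2) {I : Ideal (𝓞 M)} (hI : I ≠ ⊥) :
    Euler_x M s I ^ 2 ≤ Euler_x M s₀ I := by
  have h1 : (1 : ℝ) ≤ Ideal.absNorm I := by
    have : Ideal.absNorm I ≠ 0 := fun h => hI (Ideal.absNorm_eq_zero_iff.mp h)
    exact_mod_cast Nat.one_le_iff_ne_zero.mpr this
  rw [Euler_x, Euler_x, ← Real.rpow_natCast, ← Real.rpow_mul (by positivity)]
  exact Real.rpow_le_rpow_of_exponent_le h1 (by push_cast; linarith)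

lemma Euler_wt_top (s : ℝ) : wt M s ⊤ = 1 := by simp [wt]

lemma Euler_wt_prod (s : ℝ) (T : Finset (HeightOneSpectrum (𝓞 M))) :
    wt M s (∏ v ∈ T, v.asIdeal) = ∏ v ∈ T, wt M s v.asIdeal := by
  classical
  induction T using Finset.induction_on with
  | empty => simp [Ideal.one_eq_top, Euler_wt_top]
  | insert v T hv ih => rw [Finset.prod_insert hv, Finset.prod_insert hv, wt_mul, ih]

lemma Euler_dvd_prod_iff (T : Finset (HeightOneSpectrum (𝓞 M))) (v : HeightOneSpectrum (𝓞 M)) :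
    v.asIdeal ∣ ∏ u ∈ T, u.asIdeal ↔ v ∈ T := by
  constructor
  · intro h
    obtain ⟨u, hu, hd⟩ := (v.prime.dvd_finsetProd_iff _).mp h
    have hle : u.asIdeal ≤ v.asIdeal := Ideal.le_of_dvd hd
    have h1 := u.isMaximal.eq_of_le v.isPrime.ne_top hle
    have h2 : v = u := HeightOneSpectrum.ext h1.symm
    rwa [h2]
  · intro h
    exact Finset.dvd_prod_of_mem _ h

lemma Euler_prod_injective :
    Function.Injective (fun T : Finset (HeightOneSpectrum (𝓞 M)) => ∏ v ∈ T, v.asIdeal) := by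
  intro T T' h
  ext v
  rw [← Euler_dvd_prod_iff, ← Euler_dvd_prod_iff M T']
  simp only at h
  rw [h]

lemma Euler_prod_le (s : ℝ) (B : Finset (HeightOneSpectrum (𝓞 M))) :
    ∏ v ∈ B, (1 + wt M s v.asIdeal) ≤ ∑' I, wt M s I := by
  rw [Finset.prod_one_add]
  calc ∑ T ∈ B.powerset, ∏ v ∈ T, wt M s v.asIdeal
      = ∑ T ∈ B.powerset, wt M s (∏ v ∈ T, v.asIdeal) := by simp_rw [Euler_wt_prod]
    _ ≤ ∑' T : Finset (HeightOneSpectrum (𝓞 M)), wt M s (∏ v ∈ T, v.asIdeal) :=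
        ENNReal.sum_le_tsum _
    _ ≤ ∑' I, wt M s I := ENNReal.tsum_comp_le_tsum_of_injective (Euler_prod_injective M) _

lemma Euler_sum_le_log {s : ℝ} (hZ : ∑' I, wt M s I = ENNReal.ofReal (zr M s))
    (B : Finset (HeightOneSpectrum (𝓞 M))) :
    ∑ v ∈ B, (Euler_x M s v.asIdeal - Euler_x M s v.asIdeal ^ 2) ≤ Real.log (zr M s) := by
  have h1 := Euler_prod_le M s B
  rw [hZ] at h1
  simp_rw [Euler_wt_eq] at h1
  have h2 : ∏ v ∈ B, (1 + ENNReal.ofReal (Euler_x M s v.asIdeal))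
      = ENNReal.ofReal (∏ v ∈ B, (1 + Euler_x M s v.asIdeal)) := by
    rw [ENNReal.ofReal_prod_of_nonneg
      (fun v _ => add_nonneg zero_le_one (Euler_x_nonneg M s v.asIdeal))]
    refine Finset.prod_congr rfl fun v _ => ?_
    rw [ENNReal.ofReal_add zero_le_one (Euler_x_nonneg M s v.asIdeal), ENNReal.ofReal_one]
  rw [h2, ENNReal.ofReal_le_ofReal_iff (zr_nonneg s)] at h1
  have h3 : Real.exp (∑ v ∈ B, (Euler_x M s v.asIdeal - Euler_x M s v.asIdeal ^ 2))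
      ≤ zr M s := by
    rw [Real.exp_sum]
    refine le_trans ?_ h1
    exact Finset.prod_le_prod (fun v _ => (Real.exp_pos _).le)
      (fun v _ => Euler_exp_le_one_add (Euler_x_nonneg M s v.asIdeal))
  have h4 : 0 < zr M s := lt_of_lt_of_le (Real.exp_pos _) h3
  exact (Real.le_log_iff_exp_le h4).mpr h3

lemma Euler_good_step [DecidableEq (Ideal (𝓞 M))] {s : ℝ} (hs : 1 ≤ s)
    (B : Finset (Ideal (𝓞 M))) {𝔭 : Ideal (𝓞 M)} (h0 : 𝔭 ≠ ⊥) (h1 : 𝔭 ≠ ⊤)
    (hfin : ∑' I : good M B, wt M s I ≠ ∞) :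
    ∑' I : good M B, wt M s I ≤
      ENNReal.ofReal (Real.exp (Euler_x M s 𝔭 + 2 * Euler_x M s 𝔭 ^ 2)) *
        ∑' I : good M (insert 𝔭 B), wt M s I := by
  apply Euler_ennreal_step (Euler_x_nonneg M s 𝔭) (Euler_x_le_half M hs h1) hfin
  rw [← Euler_wt_eq]
  calc ∑' I : good M B, wt M s I
      ≤ ∑' I : (good M (insert 𝔭 B) ∪ (fun J => 𝔭 * J) '' good M B : Set _), wt M s I :=
        ENNReal.tsum_mono_subtype _ (good_subset M B 𝔭)
    _ ≤ ∑' I : good M (insert 𝔭 B), wt M s I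
          + ∑' I : ((fun J => 𝔭 * J) '' good M B : Set _), wt M s I :=
        ENNReal.tsum_union_le _ _ _
    _ = ∑' I : good M (insert 𝔭 B), wt M s I + ∑' J : good M B, wt M s (𝔭 * J) := by
        rw [tsum_image (wt M s) (fun x _ y _ hxy => mul_left_cancel₀ h0 hxy)]
    _ = ∑' I : good M (insert 𝔭 B), wt M s I + wt M s 𝔭 * ∑' I : good M B, wt M s I := by
        simp_rw [wt_mul]
        rw [ENNReal.tsum_mul_left]

lemma Euler_le_exp_mul_good [DecidableEq (Ideal (𝓞 M))] {s : ℝ} (hs : 1 ≤ s)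
    (hfin : ∑' I, wt M s I ≠ ∞) (B : Finset (HeightOneSpectrum (𝓞 M))) :
    ∑' I, wt M s I ≤
      ENNReal.ofReal (Real.exp
        (∑ v ∈ B, (Euler_x M s v.asIdeal + 2 * Euler_x M s v.asIdeal ^ 2))) *
        ∑' I : good M (B.image (fun v => v.asIdeal)), wt M s I := by
  classical
  induction B using Finset.induction_on with
  | empty =>
    rw [Finset.image_empty, tsum_good_empty M (by linarith)]
    simp
  | insert v B hv ih =>
    have hfin' : ∑' I : good M (B.image (fun v => v.asIdeal)), wt M s I ≠ ∞ :=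
      ne_top_of_le_ne_top hfin (ENNReal.tsum_comp_le_tsum_of_injective Subtype.val_injective _)
    rw [Finset.sum_insert hv, add_comm, Real.exp_add, ENNReal.ofReal_mul (Real.exp_pos _).le,
      Finset.image_insert, mul_assoc]
    refine ih.trans ?_
    gcongr
    exact Euler_good_step M hs _ v.ne_bot v.isPrime.ne_top hfin'

lemma Euler_exists_good_le_two [DecidableEq (Ideal (𝓞 M))] {s : ℝ}
    (hfin : ∑' I, wt M s I ≠ ∞) :
    ∃ B : Finset (HeightOneSpectrum (𝓞 M)),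
      ∑' I : good M (B.image (fun v => v.asIdeal)), wt M s I ≤ 2 := by
  obtain ⟨S, hS⟩ := ((ENNReal.tendsto_tsum_compl_atTop_zero hfin).eventually
    (ge_mem_nhds zero_lt_one)).exists
  have hF : {v : HeightOneSpectrum (𝓞 M) | ∃ I ∈ S, I ≠ ⊥ ∧ v.asIdeal ∣ I}.Finite := by
    have h1 : (⋃ I ∈ (S.filter (fun I => I ≠ ⊥) : Finset (Ideal (𝓞 M))),
        {v : HeightOneSpectrum (𝓞 M) | v.asIdeal ∣ I}).Finite :=
      Set.Finite.biUnion (Finset.finite_toSet _) (fun I hI => Ideal.finite_factors (by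
        have := (Finset.mem_filter.mp (Finset.mem_coe.mp hI)).2
        exact this))
    refine h1.subset ?_
    rintro v ⟨I, hI, hI0, hd⟩
    simp only [Set.mem_iUnion]
    exact ⟨I, Finset.mem_filter.mpr ⟨hI, hI0⟩, hd⟩
  refine ⟨hF.toFinset, ?_⟩
  have hsub : good M (hF.toFinset.image (fun v => v.asIdeal)) ⊆ {⊤} ∪ {I | I ∉ S} := by
    intro I hI
    by_cases hT : I = ⊤
    · exact Or.inl hT
    · right
      intro hIS
      obtain ⟨𝔪, h𝔪, hle⟩ := Ideal.exists_le_maximal I hT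
      have h𝔪0 : 𝔪 ≠ ⊥ := by
        rintro rfl
        exact hI.1 (le_bot_iff.mp hle)
      let v : HeightOneSpectrum (𝓞 M) := ⟨𝔪, h𝔪.isPrime, h𝔪0⟩
      refine hI.2 𝔪 ?_ (Ideal.dvd_iff_le.mpr hle)
      refine Finset.mem_image.mpr ⟨v, ?_, rfl⟩
      rw [Set.Finite.mem_toFinset]
      exact ⟨I, hIS, hI.1, Ideal.dvd_iff_le.mpr hle⟩
  calc ∑' I : good M (hF.toFinset.image (fun v => v.asIdeal)), wt M s I
      ≤ ∑' I : ({⊤} ∪ {I | I ∉ S} : Set (Ideal (𝓞 M))), wt M s I :=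
        ENNReal.tsum_mono_subtype _ hsub
    _ ≤ ∑' I : ({⊤} : Set (Ideal (𝓞 M))), wt M s I
          + ∑' I : ({I | I ∉ S} : Set (Ideal (𝓞 M))), wt M s I := ENNReal.tsum_union_le _ _ _
    _ ≤ 1 + 1 := by
        gcongr
        · rw [tsum_singleton (⊤ : Ideal (𝓞 M)) (wt M s), Euler_wt_top]
        · exact hS
    _ = 2 := one_add_one_eq_two

end Weights

section Main

variable (M : Type*) [Field M] [NumberField M]

lemma Euler_sum_sq_le {s s₀ : ℝ} (hs : 1 ≤ s) (hs₀ : s₀ ≤ 2)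
    (hZ₀ : ∑' I, wt M s₀ I = ENNReal.ofReal (zr M s₀)) (B : Finset (HeightOneSpectrum (𝓞 M))) :
    ∑ v ∈ B, Euler_x M s v.asIdeal ^ 2 ≤ zr M s₀ := by
  have h1 : ∑ v ∈ B, Euler_x M s v.asIdeal ^ 2 ≤ ∑ v ∈ B, Euler_x M s₀ v.asIdeal :=
    Finset.sum_le_sum fun v _ => Euler_x_sq_le M hs hs₀ v.ne_bot
  refine h1.trans ?_
  rw [← ENNReal.ofReal_le_ofReal_iff (zr_nonneg s₀), ← hZ₀,
    ENNReal.ofReal_sum_of_nonneg (fun v _ => Euler_x_nonneg M s₀ v.asIdeal)]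
  simp_rw [← Euler_wt_eq]
  calc ∑ v ∈ B, wt M s₀ v.asIdeal
      ≤ ∑' v : HeightOneSpectrum (𝓞 M), wt M s₀ v.asIdeal := ENNReal.sum_le_tsum _
    _ ≤ ∑' I, wt M s₀ I :=
        ENNReal.tsum_comp_le_tsum_of_injective (fun v w h => HeightOneSpectrum.ext h) _

/-- `∑_𝔭 N𝔭^{-s} = log (1/(s-1)) + O(1)` as `s → 1⁺`. -/
theorem close_primeSum :
    Close (fun s => ∑' v : HeightOneSpectrum (𝓞 M), nw s (nrm M v)) lam := by
  classical
  set ρ := dedekindZeta_residue M with hρ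
  have hρpos : 0 < ρ := dedekindZeta_residue_pos M
  have hev := eventually_tsum_wt_eq M
  have hlt2 : ∀ᶠ s in 𝓝[>] (1 : ℝ), s < 2 :=
    nhdsWithin_le_nhds (gt_mem_nhds (by norm_num))
  obtain ⟨s₀, hs₀Z, hs₀2⟩ := (hev.and hlt2).exists
  set C₀ := zr M s₀ with hC₀
  have hC₀nn : 0 ≤ C₀ := zr_nonneg s₀
  have ht := tendsto_zr M
  have hlow : ∀ᶠ s in 𝓝[>] (1 : ℝ), ρ / 2 < (s - 1) * zr M s :=
    ht.eventually (lt_mem_nhds (by linarith))
  have hup : ∀ᶠ s in 𝓝[>] (1 : ℝ), (s - 1) * zr M s < 2 * ρ :=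
    ht.eventually (gt_mem_nhds (by linarith))
  set Kc : ℝ := |Real.log (2 * ρ)| + |Real.log (ρ / 2)| + 2 * C₀ + Real.log 2 with hK
  refine ⟨Kc.toNNReal, ?_⟩
  filter_upwards [hev, hlow, hup, self_mem_nhdsWithin] with s hZ hl hu hs
  have hs1 : (1 : ℝ) < s := hs
  have hs1' : 0 < s - 1 := by linarith
  have hzpos : 0 < zr M s := by
    by_contra hcon
    push Not at hcon
    have : (s - 1) * zr M s ≤ 0 := mul_nonpos_of_nonneg_of_nonpos hs1'.le hcon
    linarith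
  have hlog : Real.log (zr M s) = Real.log ((s - 1) * zr M s) + Real.log (1 / (s - 1)) := by
    rw [← Real.log_mul (by positivity) (by positivity)]
    congr 1
    field_simp
  have hlogu : Real.log ((s - 1) * zr M s) ≤ Real.log (2 * ρ) :=
    Real.log_le_log (by positivity) hu.le
  have hlogl : Real.log (ρ / 2) ≤ Real.log ((s - 1) * zr M s) :=
    Real.log_le_log (by positivity) hl.le
  have hlog2 : 0 ≤ Real.log 2 := Real.log_nonneg (by norm_num)
  have hcoe : ((Kc.toNNReal : ℝ≥0) : ℝ≥0∞) = ENNReal.ofReal Kc := rfl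
  have hfin : ∑' I, wt M s I ≠ ∞ := by rw [hZ]; exact ENNReal.ofReal_ne_top
  have hterm : ∀ v : HeightOneSpectrum (𝓞 M),
      nw s (nrm M v) = ENNReal.ofReal (Euler_x M s v.asIdeal) :=
    fun v => Euler_wt_eq M s v.asIdeal
  rw [hcoe]
  constructor
  · rw [ENNReal.tsum_eq_iSup_sum]
    refine iSup_le fun B => ?_
    simp_rw [hterm]
    rw [← ENNReal.ofReal_sum_of_nonneg (fun v _ => Euler_x_nonneg M s v.asIdeal)]
    refine le_trans ?_ ENNReal.ofReal_add_le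
    apply ENNReal.ofReal_le_ofReal
    have h1 := Euler_sum_le_log M hZ B
    have h2 := Euler_sum_sq_le M hs1.le hs₀2.le hs₀Z B
    rw [Finset.sum_sub_distrib] at h1
    have h3 := le_abs_self (Real.log (2 * ρ))
    have h4 := abs_nonneg (Real.log (ρ / 2))
    linarith
  · obtain ⟨B, hB⟩ := Euler_exists_good_le_two M hfin
    have h1 := Euler_le_exp_mul_good M hs1.le hfin B
    set E := ∑ v ∈ B, (Euler_x M s v.asIdeal + 2 * Euler_x M s v.asIdeal ^ 2) with hE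
    have h2 : ENNReal.ofReal (zr M s) ≤ ENNReal.ofReal (Real.exp E * 2) := by
      rw [← hZ, ENNReal.ofReal_mul (Real.exp_pos _).le]
      refine h1.trans ?_
      gcongr
      simpa using hB
    rw [ENNReal.ofReal_le_ofReal_iff (by positivity)] at h2
    have h3 : Real.log (zr M s) ≤ E + Real.log 2 := by
      have := Real.log_le_log hzpos h2
      rwa [Real.log_mul (Real.exp_pos _).ne' (by norm_num), Real.log_exp] at this
    have h4 := Euler_sum_sq_le M hs1.le hs₀2.le hs₀Z B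
    have h5 : E = ∑ v ∈ B, Euler_x M s v.asIdeal
        + 2 * ∑ v ∈ B, Euler_x M s v.asIdeal ^ 2 := by
      rw [hE, Finset.sum_add_distrib, Finset.mul_sum]
    have h6 : ENNReal.ofReal (∑ v ∈ B, Euler_x M s v.asIdeal)
        ≤ ∑' v : HeightOneSpectrum (𝓞 M), nw s (nrm M v) := by
      rw [ENNReal.ofReal_sum_of_nonneg (fun v _ => Euler_x_nonneg M s v.asIdeal)]
      simp_rw [← hterm]
      exact ENNReal.sum_le_tsum _
    calc lam s = ENNReal.ofReal (Real.log (1 / (s - 1))) := rfl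
      _ ≤ ENNReal.ofReal (∑ v ∈ B, Euler_x M s v.asIdeal + Kc) := by
          apply ENNReal.ofReal_le_ofReal
          have h7 := neg_abs_le (Real.log (ρ / 2))
          have h8 := abs_nonneg (Real.log (2 * ρ))
          linarith
      _ ≤ ENNReal.ofReal (∑ v ∈ B, Euler_x M s v.asIdeal) + ENNReal.ofReal Kc :=
          ENNReal.ofReal_add_le
      _ ≤ _ := by gcongr

end Main

end Fermat.Agent.Lib.FrobDensity
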