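import Fermat.Agent.Lib.FrobDensity.Basic

/-!
# Frobenius density theorem: the fibre computation (T3)
-/

set_option autoImplicit false

namespace Fermat.Agent.Lib.FrobDensity

open NumberField IsDedekindDomain Filter Topology
open scoped ENNReal NNReal

namespace Fiber

open Polynomial in
lemma card_le_of_forall_pow_eq {k : Type*} [Field k] [Finite k] {n : ℕ} (hn : 1 < n)
    (h : ∀ y : k, y ^ n = y) : Nat.card k ≤ n := by
  classical
  have := Fintype.ofFinite k
  have hne : (X ^ n - X : k[X]) ≠ 0 := FiniteField.X_pow_card_sub_X_ne_zero k hn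
  have hdeg : (X ^ n - X : k[X]).natDegree = n := FiniteField.X_pow_card_sub_X_natDegree_eq k hn
  calc Nat.card k = Fintype.card k := Nat.card_eq_fintype_card
    _ = (Finset.univ : Finset k).card := rfl
    _ ≤ (X ^ n - X : k[X]).roots.toFinset.card :=
        Finset.card_le_card (fun y _ => by simp [hne, h y])
    _ ≤ Multiset.card (X ^ n - X : k[X]).roots := Multiset.toFinset_card_le _
    _ ≤ (X ^ n - X : k[X]).natDegree := Polynomial.card_roots' _
    _ = n := hdeg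

end Fiber

variable (L : Type*) [Field L] [NumberField L] (G : Type*) [Group G] [Finite G]
  [MulSemiringAction G L] [IsGaloisGroup G ℚ L]

namespace Fiber

variable (U : Subgroup G) (M : Type*) [Field M] [NumberField M] [Algebra M L] [IsGaloisGroup U M L]

omit [NumberField L] [Finite G] [IsGaloisGroup G ℚ L] in
/-- the inertia group in `U` is trivial when the inertia group in `G` is. -/
lemma inertia_sub_eq_bot (w : HeightOneSpectrum (𝓞 L)) (hw : w.asIdeal.inertia G = ⊥) :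
    w.asIdeal.inertia U = ⊥ := by
  rw [eq_bot_iff]
  intro σ hσ
  have h1 : (σ : G) ∈ w.asIdeal.inertia G := by
    intro x
    exact hσ x
  rw [hw, Subgroup.mem_bot] at h1
  rw [Subgroup.mem_bot]
  exact Subtype.ext h1

omit [IsGaloisGroup G ℚ L] in
include G U in
lemma ramificationIdx_eq_one (w : HeightOneSpectrum (𝓞 L)) (hw : w.asIdeal.inertia G = ⊥) :
    w.asIdeal.ramificationIdx (𝓞 M) = 1 := by
  have : IsGaloisGroup U (𝓞 M) (𝓞 L) := IsGaloisGroup.of_isFractionRing U (𝓞 M) (𝓞 L) M L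
  have h1 : w.asIdeal.LiesOver (w.asIdeal.under (𝓞 M)) := ⟨rfl⟩
  have h2 : (w.asIdeal.under (𝓞 M)).IsPrime := inferInstance
  have h3 : Finite (𝓞 M ⧸ w.asIdeal.under (𝓞 M)) := finite_quot M (HeightOneSpectrum.under (𝓞 M) w)
  have h4 : PerfectField (w.asIdeal.under (𝓞 M)).ResidueField := inferInstance
  rw [← Ideal.ramificationIdxIn_eq_ramificationIdx (w.asIdeal.under (𝓞 M)) w.asIdeal U,
    ← Ideal.card_inertia_eq_ramificationIdxIn (G := U) (w.asIdeal.under (𝓞 M)) w.asIdeal,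
    inertia_sub_eq_bot L G U w hw, Subgroup.card_bot]

/-- `frob ∈ U` forces the prime below to have degree one. -/
lemma nrm_eq_of_frob_mem (w : HeightOneSpectrum (𝓞 L)) (h : frob L G w ∈ U) :
    nrm M (HeightOneSpectrum.under (𝓞 M) w) = ell L w := by
  have : IsGaloisGroup U (𝓞 M) (𝓞 L) := IsGaloisGroup.of_isFractionRing U (𝓞 M) (𝓞 L) M L
  set v := HeightOneSpectrum.under (𝓞 M) w with hv
  have hℓ : (ell L w).Prime := ell_prime L w
  have key : ∀ x : 𝓞 M, x - x ^ ell L w ∈ v.asIdeal := by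
    intro x
    have h1 := frob_spec L G w (algebraMap (𝓞 M) (𝓞 L) x)
    have h2 : frob L G w • (algebraMap (𝓞 M) (𝓞 L) x) = algebraMap (𝓞 M) (𝓞 L) x := by
      have := smul_algebraMap (⟨frob L G w, h⟩ : U) (A := 𝓞 L) x
      exact this
    rw [h2, ← map_pow, ← map_sub] at h1
    exact h1
  have : v.asIdeal.IsMaximal := v.isMaximal
  let : Field (𝓞 M ⧸ v.asIdeal) := Ideal.Quotient.field _
  have hcard : Nat.card (𝓞 M ⧸ v.asIdeal) ≤ ell L w := by
    apply card_le_of_forall_pow_eq hℓ.one_lt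
    intro y
    obtain ⟨x, rfl⟩ := Ideal.Quotient.mk_surjective y
    rw [← map_pow, eq_comm, Ideal.Quotient.eq]
    exact key x
  have hn : nrm M v = Nat.card (𝓞 M ⧸ v.asIdeal) := by
    rw [nrm, Ideal.absNorm_apply, Submodule.cardQuot_apply]
  have hpow := ell_pow_inertiaDeg M v
  rw [ell_under L M w] at hpow
  have hpos := inertiaDeg_pos M v
  apply le_antisymm
  · rw [hn]; exact hcard
  · rw [← hpow]
    exact Nat.le_self_pow hpos.ne' _

/-- Conversely, over a prime of degree one the Frobenius lies in `U`. -/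
lemma frob_mem_of_nrm_eq (w : HeightOneSpectrum (𝓞 L)) (hw : w.asIdeal.inertia G = ⊥)
    (h : nrm M (HeightOneSpectrum.under (𝓞 M) w) = ell L w) : frob L G w ∈ U := by
  have : IsGaloisGroup U (𝓞 M) (𝓞 L) := IsGaloisGroup.of_isFractionRing U (𝓞 M) (𝓞 L) M L
  obtain ⟨τ, hτ⟩ := IsArithFrobAt.exists_of_isInvariant (𝓞 M) U w.asIdeal
  have hn : Nat.card (𝓞 M ⧸ w.asIdeal.under (𝓞 M)) = ell L w := by
    rw [← h, nrm, Ideal.absNorm_apply, Submodule.cardQuot_apply]
    rfl
  have : (τ : G) = frob L G w := by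
    apply eq_frob_of_forall L G hw
    intro x
    have := hτ x
    rw [hn] at this
    exact this
  rw [← this]
  exact τ.2

/-- The primes of `L` above `v` versus `primesOver`. -/
noncomputable def fiberEquiv (v : HeightOneSpectrum (𝓞 M)) :
    {w : HeightOneSpectrum (𝓞 L) // HeightOneSpectrum.under (𝓞 M) w = v} ≃
      v.asIdeal.primesOver (𝓞 L) where
  toFun w := ⟨w.1.asIdeal, w.1.isPrime, ⟨(congrArg HeightOneSpectrum.asIdeal w.2).symm⟩⟩
  invFun Q := ⟨⟨Q.1, Q.2.1, Ideal.ne_bot_of_mem_primesOver v.ne_bot Q.2⟩, by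
    apply HeightOneSpectrum.ext
    exact Q.2.2.over.symm⟩
  left_inv w := rfl
  right_inv Q := rfl

include G U in
omit [IsGaloisGroup G ℚ L] in
/-- `∑_{w ∣ v} f(w/ℚ) = |U|` over an unramified prime `v` of degree one. -/
lemma tsum_inertiaDeg (v : HeightOneSpectrum (𝓞 M)) (hv : nrm M v = ell M v)
    (hin : ∀ w : HeightOneSpectrum (𝓞 L), HeightOneSpectrum.under (𝓞 M) w = v →
      w.asIdeal.inertia G = ⊥) :
    ∑' w : {w : HeightOneSpectrum (𝓞 L) // HeightOneSpectrum.under (𝓞 M) w = v},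
      (w.1.asIdeal.inertiaDeg ℤ : ℝ≥0∞) = Nat.card U := by
  have : IsGaloisGroup U (𝓞 M) (𝓞 L) := IsGaloisGroup.of_isFractionRing U (𝓞 M) (𝓞 L) M L
  have h1 : ∑' w : {w : HeightOneSpectrum (𝓞 L) // HeightOneSpectrum.under (𝓞 M) w = v},
      (w.1.asIdeal.inertiaDeg ℤ : ℝ≥0∞) =
      ∑' Q : v.asIdeal.primesOver (𝓞 L), (Q.1.inertiaDeg ℤ : ℝ≥0∞) :=
    (fiberEquiv L M v).tsum_eq (fun Q : v.asIdeal.primesOver (𝓞 L) => (Q.1.inertiaDeg ℤ : ℝ≥0∞))
  rw [h1, tsum_fintype, ← Ideal.sum_ramification_inertia_eq_card (p := v.asIdeal) (S := 𝓞 L) (G := U)]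
  push_cast
  refine Finset.sum_congr rfl fun Q _ => ?_
  have hQ : Q.1.LiesOver v.asIdeal := Q.2.2
  have e1 : Q.1.ramificationIdx (𝓞 M) = 1 :=
    ramificationIdx_eq_one L G U M ((fiberEquiv L M v).symm Q).1
      (hin _ ((fiberEquiv L M v).symm Q).2)
  have e2 : Q.1.inertiaDeg ℤ = v.asIdeal.inertiaDeg ℤ * Q.1.inertiaDeg (𝓞 M) :=
    Ideal.inertiaDeg_tower v.asIdeal Q.1
  rw [e1, e2, (nrm_eq_ell_iff M v).1 hv]
  push_cast
  rfl

end Fiber

theorem card_mul_mass1 (U : Subgroup G) (M : Type*) [Field M] [NumberField M] [Algebra M L]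
    [IsGaloisGroup U M L] (N : ℕ)
    (hN : ∀ w : HeightOneSpectrum (𝓞 L), ¬ ell L w ∣ N → w.asIdeal.inertia G = ⊥) (s : ℝ) :
    (Nat.card U : ℝ≥0∞) * mass1 M N s =
      ∑' w : HeightOneSpectrum (𝓞 L), Set.indicator {w | ¬ ell L w ∣ N ∧ frob L G w ∈ U}
        (fun w => (w.asIdeal.inertiaDeg ℤ : ℝ≥0∞) * nw s (ell L w)) w := by
  classical
  rw [mass1, ← ENNReal.tsum_mul_left,
    ← (Equiv.sigmaFiberEquiv (HeightOneSpectrum.under (𝓞 M) (B := 𝓞 L))).tsum_eq,
    ENNReal.tsum_sigma']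
  refine tsum_congr fun v => ?_
  by_cases hv : (nrm M v).Prime ∧ ¬ nrm M v ∣ N
  · have hv1 : nrm M v = ell M v := (nrm_prime_iff M v).1 hv.1
    have hell : ∀ w : HeightOneSpectrum (𝓞 L), HeightOneSpectrum.under (𝓞 M) w = v →
        ell L w = nrm M v := by
      intro w hw
      rw [hv1, ← hw, ell_under]
    have hin : ∀ w : HeightOneSpectrum (𝓞 L), HeightOneSpectrum.under (𝓞 M) w = v →
        w.asIdeal.inertia G = ⊥ := by
      intro w hw
      apply hN
      rw [hell w hw]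
      exact hv.2
    rw [Set.indicator_of_mem (show v ∈ {v | (nrm M v).Prime ∧ ¬ nrm M v ∣ N} from hv),
      ← Fiber.tsum_inertiaDeg L G U M v hv1 hin, ← ENNReal.tsum_mul_right]
    refine tsum_congr fun w => ?_
    have hmem : w.1 ∈ {w : HeightOneSpectrum (𝓞 L) | ¬ ell L w ∣ N ∧ frob L G w ∈ U} := by
      refine ⟨?_, ?_⟩
      · rw [hell w.1 w.2]; exact hv.2
      · apply Fiber.frob_mem_of_nrm_eq L G U M w.1 (hin w.1 w.2)
        rw [w.2, hell w.1 w.2]
    show _ = Set.indicator _ _ w.1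
    rw [Set.indicator_of_mem hmem, hell w.1 w.2]
  · rw [Set.indicator_of_notMem (show v ∉ {v | (nrm M v).Prime ∧ ¬ nrm M v ∣ N} from hv), mul_zero]
    symm
    rw [ENNReal.tsum_eq_zero]
    intro w
    show Set.indicator _ _ w.1 = 0
    apply Set.indicator_of_notMem
    rintro ⟨h1, h2⟩
    apply hv
    have h3 := Fiber.nrm_eq_of_frob_mem L G U M w.1 h2
    rw [w.2] at h3
    rw [h3]
    exact ⟨ell_prime L w.1, h1⟩

end Fermat.Agent.Lib.FrobDensity
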