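import Fermat.Agent.Lib.FrobDensity.Basic

/-!
# Frobenius density theorem: the Möbius induction
-/

namespace Fermat.Agent.Lib.FrobDensity

open Filter Topology
open scoped ENNReal NNReal

lemma indicator_dvd_eq_sum {ι : Type*} (W : ι → ℝ≥0∞) (o : ι → ℕ) {d : ℕ} (hd : d ≠ 0) (i : ι) :
    Set.indicator {i | o i ∣ d} W i = ∑ e ∈ d.divisors, Set.indicator {i | o i = e} W i := by
  classical
  by_cases h : o i ∣ d
  · rw [Set.indicator_of_mem (show i ∈ {i | o i ∣ d} from h),
      Finset.sum_eq_single (o i)]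
    · rw [Set.indicator_of_mem (show i ∈ {j | o j = o i} from rfl)]
    · intro e _ he
      exact Set.indicator_of_notMem (show i ∉ {j | o j = e} from fun h' => he (Eq.symm h')) _
    · intro h'
      exact absurd (Nat.mem_divisors.mpr ⟨h, hd⟩) h'
  · rw [Set.indicator_of_notMem (show i ∉ {i | o i ∣ d} from h)]
    symm
    refine Finset.sum_eq_zero fun e he => ?_
    refine Set.indicator_of_notMem (show i ∉ {j | o j = e} from fun h' => h ?_) _
    have h'' : o i = e := h'
    rw [h'']
    exact Nat.dvd_of_mem_divisors he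

theorem mobius_aux {ι : Type*} (W : ℝ → ι → ℝ≥0∞) (o : ι → ℕ) (n : ℕ) (hn : 0 < n)
    (h : ∀ d, d ∣ n → Close (fun s => ∑' i, Set.indicator {i | o i ∣ d} (W s) i)
      (fun s => d * lam s)) (d : ℕ) (hd : d ∣ n) :
    Close (fun s => ∑' i, Set.indicator {i | o i = d} (W s) i)
      (fun s => (Nat.totient d : ℝ≥0∞) * lam s) := by
  induction d using Nat.strong_induction_on with
  | _ d ih =>
    have hd0 : d ≠ 0 := fun h0 => hn.ne' (Nat.eq_zero_of_zero_dvd (h0 ▸ hd))
    have h1 : Close (fun s => ∑ e ∈ d.properDivisors, ∑' i, Set.indicator {i | o i = e} (W s) i)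
        (fun s => ∑ e ∈ d.properDivisors, (Nat.totient e : ℝ≥0∞) * lam s) := by
      refine Close.sum _ _ _ fun e he => ?_
      have he' := Nat.mem_properDivisors.mp he
      exact ih e he'.2 (he'.1.trans hd)
    have h2 : ∀ s, ∑' i, Set.indicator {i | o i ∣ d} (W s) i =
        ∑' i, Set.indicator {i | o i = d} (W s) i +
          ∑ e ∈ d.properDivisors, ∑' i, Set.indicator {i | o i = e} (W s) i := by
      intro s
      simp_rw [indicator_dvd_eq_sum (W s) o hd0]
      rw [Summable.tsum_finsetSum (fun _ _ => ENNReal.summable),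
        ← Nat.insert_self_properDivisors hd0,
        Finset.sum_insert Nat.self_notMem_properDivisors]
    have h3 : ∀ s, (d : ℝ≥0∞) * lam s = (Nat.totient d : ℝ≥0∞) * lam s +
        ∑ e ∈ d.properDivisors, (Nat.totient e : ℝ≥0∞) * lam s := by
      intro s
      conv_lhs => rw [← Nat.sum_totient d]
      rw [← Nat.insert_self_properDivisors hd0,
        Finset.sum_insert Nat.self_notMem_properDivisors]
      push_cast
      rw [add_mul, Finset.sum_mul]
    have h4 := h d hd
    simp_rw [h2, h3] at h4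
    refine Close.cancel_right h4 h1 ?_
    refine Close.eventually_ne_top h1 fun s => ?_
    exact ENNReal.sum_ne_top.mpr fun e _ =>
      ENNReal.mul_ne_top (ENNReal.natCast_ne_top _) (lam_ne_top s)

/-- **Möbius induction.**  If the mass of `{o ∣ d}` is `d * lam + O(1)` for all `d ∣ n`, then the
mass of `{o = n}` is `φ(n) * lam + O(1)`. -/
theorem mobius {ι : Type*} (W : ℝ → ι → ℝ≥0∞) (o : ι → ℕ) (n : ℕ) (hn : 0 < n)
    (h : ∀ d, d ∣ n → Close (fun s => ∑' i, Set.indicator {i | o i ∣ d} (W s) i)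
      (fun s => d * lam s)) :
    Close (fun s => ∑' i, Set.indicator {i | o i = n} (W s) i)
      (fun s => (Nat.totient n : ℝ≥0∞) * lam s) :=
  mobius_aux W o n hn h n dvd_rfl

/-- Consequence: some index has `o i = n`. -/
theorem exists_of_mobius {ι : Type*} (W : ℝ → ι → ℝ≥0∞) (o : ι → ℕ) (n : ℕ) (hn : 0 < n)
    (h : ∀ d, d ∣ n → Close (fun s => ∑' i, Set.indicator {i | o i ∣ d} (W s) i)
      (fun s => d * lam s)) : ∃ i, o i = n := by
  have h1 := mobius W o n hn h
  have h2 : (1 : ℝ≥0∞) ≤ (Nat.totient n : ℝ≥0∞) := by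
    exact_mod_cast Nat.totient_pos.mpr hn
  obtain ⟨s, hs⟩ := h1.exists_ne_zero h2
  by_contra hcon
  push Not at hcon
  apply hs
  have : ∀ i, Set.indicator {i | o i = n} (W s) i = 0 := fun i =>
    Set.indicator_of_notMem (show i ∉ {j | o j = n} from hcon i) _
  simp [this]

end Fermat.Agent.Lib.FrobDensity
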