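import Fermat.Agent.Lib.FrobDensity.Euler
import Fermat.Agent.Lib.FrobDensity.DegOne
import Fermat.Agent.Lib.FrobDensity.Fiber
import Fermat.Agent.Lib.FrobDensity.Bad
import Fermat.Agent.Lib.FrobDensity.Mobius

/-!
# Frobenius density theorem at finite level
-/

namespace Fermat.Agent.Lib.FrobDensity

open NumberField IsDedekindDomain Filter Topology
open scoped ENNReal NNReal

section Group

variable {G : Type*} [Group G]

lemma mem_zpowers_pow_div_iff {g : G} {d : ℕ} (hn : 0 < orderOf g) (hd : d ∣ orderOf g) (x : G) :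
    x ∈ Subgroup.zpowers (g ^ (orderOf g / d)) ↔ x ∈ Subgroup.zpowers g ∧ orderOf x ∣ d := by
  obtain ⟨e, he⟩ := hd
  have hd0 : 0 < d := Nat.pos_of_ne_zero fun h => by
    rw [h, zero_mul] at he
    omega
  have hdiv : orderOf g / d = e := by rw [he]; exact Nat.mul_div_cancel_left e hd0
  rw [hdiv]
  constructor
  · rintro ⟨k, rfl⟩
    refine ⟨⟨e * k, by simp [zpow_mul]⟩, ?_⟩
    rw [orderOf_dvd_iff_pow_eq_one]
    have : ((g ^ e) ^ k) ^ d = (g ^ (d * e)) ^ k := by
      rw [← zpow_natCast, ← zpow_natCast, ← zpow_natCast, ← zpow_mul, ← zpow_mul, ← zpow_mul]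
      congr 1
      push_cast
      ring
    simp only at this ⊢
    rw [this, ← he, pow_orderOf_eq_one, one_zpow]
  · rintro ⟨⟨k, rfl⟩, hk⟩
    rw [orderOf_dvd_iff_pow_eq_one] at hk
    have h1 : g ^ (k * d) = 1 := by
      simpa [zpow_mul] using hk
    have h2 : (orderOf g : ℤ) ∣ k * d := orderOf_dvd_iff_zpow_eq_one.mpr h1
    rw [he] at h2
    push_cast at h2
    have h3 : (e : ℤ) ∣ k := by
      have : (d : ℤ) * e ∣ d * k := by rwa [mul_comm (d : ℤ) k]
      exact (mul_dvd_mul_iff_left (by exact_mod_cast hd0.ne')).mp this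
    obtain ⟨j, rfl⟩ := h3
    exact ⟨j, by simp [zpow_mul]⟩

lemma card_zpowers_pow_div {g : G} {d : ℕ} (hn : 0 < orderOf g) (hd : d ∣ orderOf g) :
    Nat.card (Subgroup.zpowers (g ^ (orderOf g / d))) = d := by
  rw [Nat.card_zpowers, orderOf_pow' g (by
    intro h
    have := Nat.div_eq_zero_iff.mp h
    rcases this with h | h
    · subst h
      exact hn.ne' (Nat.eq_zero_of_zero_dvd hd)
    · exact absurd (Nat.le_of_dvd hn hd) (not_le.mpr h))]
  rw [Nat.gcd_eq_right (Nat.div_dvd_of_dvd hd)]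
  exact Nat.div_div_self hd hn.ne'

lemma zpowers_eq_of_mem_of_orderOf_eq [Finite G] {g x : G} (hx : x ∈ Subgroup.zpowers g)
    (ho : orderOf x = orderOf g) : Subgroup.zpowers x = Subgroup.zpowers g := by
  apply Subgroup.eq_of_le_of_card_ge (Subgroup.zpowers_le.mpr hx)
  rw [Nat.card_zpowers, Nat.card_zpowers, ho]

end Group

variable (L : Type*) [Field L] [NumberField L] (G : Type*) [Group G] [Finite G]
  [MulSemiringAction G L] [IsGaloisGroup G ℚ L]

theorem close_mass1 (M : Type*) [Field M] [NumberField M] (N : ℕ) (hN : N ≠ 0) :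
    Close (mass1 M N) lam :=
  close_mass1_of M N hN (close_primeSum M)

open scoped Classical in
/-- **Frobenius density theorem, finite level.** -/
theorem exists_zpowers_frob_eq (g : G) (N₀ : ℕ) (hN₀ : N₀ ≠ 0) :
    ∃ w : HeightOneSpectrum (𝓞 L), ¬ ell L w ∣ N₀ ∧ w.asIdeal.inertia G = ⊥ ∧
      Subgroup.zpowers (frob L G w) = Subgroup.zpowers g := by
  obtain ⟨N₁, hN₁, hin⟩ := exists_inertia_eq_bot L G
  set N := N₀ * N₁ with hNdef
  have hN : N ≠ 0 := mul_ne_zero hN₀ hN₁
  have hin' : ∀ w : HeightOneSpectrum (𝓞 L), ¬ ell L w ∣ N → w.asIdeal.inertia G = ⊥ :=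
    fun w hw => hin w fun h => hw (h.mul_left _)
  have hn : 0 < orderOf g := orderOf_pos g
  let W : ℝ → HeightOneSpectrum (𝓞 L) → ℝ≥0∞ :=
    fun s w => (w.asIdeal.inertiaDeg ℤ : ℝ≥0∞) * nw s (ell L w)
  let o : HeightOneSpectrum (𝓞 L) → ℕ := fun w =>
    if ¬ ell L w ∣ N ∧ frob L G w ∈ Subgroup.zpowers g then orderOf (frob L G w) else 0
  have key : ∀ d, d ∣ orderOf g → Close (fun s => ∑' i, Set.indicator {i | o i ∣ d} (W s) i)
      (fun s => d * lam s) := by
    intro d hd
    have hd0 : d ≠ 0 := fun h => hn.ne' (Nat.eq_zero_of_zero_dvd (h ▸ hd))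
    let U : Subgroup G := Subgroup.zpowers (g ^ (orderOf g / d))
    let M : IntermediateField ℚ L := FixedPoints.intermediateField U
    have hset : {i | o i ∣ d} = {w | ¬ ell L w ∣ N ∧ frob L G w ∈ U} := by
      ext w
      simp only [Set.mem_ofPred_eq, o]
      split_ifs with h
      · rw [mem_zpowers_pow_div_iff hn hd]
        exact ⟨fun h' => ⟨h.1, h.2, h'⟩, fun h' => h'.2.2⟩
      · constructor
        · intro h'
          exact absurd (Nat.eq_zero_of_zero_dvd h') hd0
        · intro h'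
          exact absurd ⟨h'.1, ((mem_zpowers_pow_div_iff hn hd _).mp h'.2).1⟩ h
    have h1 := (close_mass1 M N hN).const_mul (d : ℝ≥0)
    have h2 : ∀ s, ((d : ℝ≥0) : ℝ≥0∞) * mass1 M N s =
        ∑' i, Set.indicator {i | o i ∣ d} (W s) i := by
      intro s
      rw [hset, ← card_mul_mass1 L G U M N hin' s, card_zpowers_pow_div hn hd]
      simp
    have h3 := h1.congr_left h2
    simpa using h3
  obtain ⟨w, hw⟩ := exists_of_mobius W o (orderOf g) hn key
  simp only [o] at hw
  split_ifs at hw with h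
  · exact ⟨w, fun h' => h.1 (h'.mul_right _), hin' w h.1, zpowers_eq_of_mem_of_orderOf_eq h.2 hw⟩
  · exact absurd hw.symm hn.ne'

end Fermat.Agent.Lib.FrobDensity
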